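import Fermat.Agent.HeckeRed.Degrees
import Fermat.Agent.ModDeg.Psi

/-!
# The degree of `X₀(M * 4)` over `X₀(M)`
-/

set_option autoImplicit false

noncomputable section

open AlgebraicCurve ModularCurve IntermediateField

namespace Fermat.Agent.LD6

open Fermat.Agent.HeckeRed Fermat.Agent.ModDeg

theorem psi_mul_four {M : ℕ} (hM : M ≠ 0) :
    dedekindPsi (M * 4) = (if 2 ∣ M then 4 else 6) * dedekindPsi M := by
  have h2 : Nat.Prime 2 := Nat.prime_two
  have h4 : M * 4 = M * 2 * 2 := by ring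
  rw [h4, psi_mul_prime_of_dvd (mul_ne_zero hM (by norm_num)) h2 (Dvd.intro_left M rfl)]
  split_ifs with h
  · rw [psi_mul_prime_of_dvd hM h2 h]; ring
  · rw [psi_mul_prime_of_not_dvd h2 h]; ring

variable {K : Type*} [Field K] [IsAlgClosed K]

theorem finrankAlong_four {M M' : ℕ} [NeZero M] (hM' : M' = M * 4) (hK : ((M * 4 : ℕ) : K) ≠ 0)
    {E E' : IntermediateField K (LaurentSeries K)} (hE : E = modularFunctionFieldFullC K M)
    (hE' : E' = modularFunctionFieldFullC K M') (φ : E →ₐ[K] E')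
    (hφ : ∀ x, (φ x : LaurentSeries K) = x) :
    finrankAlong K φ = if 2 ∣ M then 4 else 6 := by
  subst hM'
  have i1 : NeZero (M * 4) := ⟨mul_ne_zero (NeZero.ne M) (by norm_num)⟩
  have hMK : ((M : ℕ) : K) ≠ 0 := by
    intro h
    exact hK (by rw [Nat.cast_mul, h, zero_mul])
  have h3 := IntermediateField.relfinrank_mul_relfinrank
    (adjoin_jq_le_full (K := K) M) (full_degeneracyC_le K (Dvd.intro 4 rfl : M ∣ M * 4))
  rw [relfinrank_full_of_isAlgClosed M hMK, relfinrank_full_of_isAlgClosed (M * 4) hK,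
    psi_mul_four (NeZero.ne M), mul_comm] at h3
  have h4 := Nat.eq_of_mul_eq_mul_right (HeckeRed.dedekindPsi_pos M) h3
  rw [finrankAlong_eq_relfinrank φ E (fun y => ⟨fun hy => ⟨⟨y, hy⟩, hφ _⟩, by
    rintro ⟨x, rfl⟩; rw [hφ]; exact x.2⟩), hE, hE', h4]

theorem finrankAlong_four_or {M M' : ℕ} [NeZero M] (hM' : M' = M * 4)
    (hK : ((M * 4 : ℕ) : K) ≠ 0)
    {E E' : IntermediateField K (LaurentSeries K)} (hE : E = modularFunctionFieldFullC K M)
    (hE' : E' = modularFunctionFieldFullC K M') (φ : E →ₐ[K] E')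
    (hφ : ∀ x, (φ x : LaurentSeries K) = x) :
    finrankAlong K φ = 4 ∨ finrankAlong K φ = 6 := by
  rw [finrankAlong_four hM' hK hE hE' φ hφ]
  split_ifs
  · exact Or.inl rfl
  · exact Or.inr rfl

theorem not_two_dvd_of_eq_six {M M' : ℕ} [NeZero M] (hM' : M' = M * 4)
    (hK : ((M * 4 : ℕ) : K) ≠ 0)
    {E E' : IntermediateField K (LaurentSeries K)} (hE : E = modularFunctionFieldFullC K M)
    (hE' : E' = modularFunctionFieldFullC K M') (φ : E →ₐ[K] E')
    (hφ : ∀ x, (φ x : LaurentSeries K) = x) (h : finrankAlong K φ = 6) : ¬ 2 ∣ M := by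
  rw [finrankAlong_four hM' hK hE hE' φ hφ] at h
  intro h2
  rw [if_pos h2] at h
  omega

end Fermat.Agent.LD6
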