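import Fermat.Agent.LD6.Delta
import Fermat.Agent.LJ3.Main2
import Fermat.Agent.LF3.Lower

/-!
# Level lowering at `p` for every odd `p`
-/

set_option autoImplicit false
set_option linter.unusedSectionVars false
set_option maxHeartbeats 1000000

noncomputable section

open AlgebraicCurve Module IntermediateField ModularCurve HahnSeries CuspForm ModularFormClass
  CongruenceSubgroup

attribute [-instance] Fermat.Agent.X0Places.ffField Fermat.Agent.X0Places.ffAlgebra

namespace Fermat.Agent.LD6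

open Fermat.Agent.BadRed Fermat.Agent.LLp Fermat.Agent.LLu Fermat.Agent.LLc Fermat.Agent.Degen
open Fermat.Agent.FunField Fermat.Agent.FunField.PlaceLemmas Fermat.Agent.Deuring
open Fermat.Agent.Igusa Fermat.Agent.AtkinLehner Fermat.Agent.HeckeRed Fermat.Agent.TorsCmp
open Fermat.Agent.LLv

local notation "Qb" => AlgebraicClosure ℚ
local notation "GQ" => (AlgebraicClosure ℚ ≃ₐ[ℚ] AlgebraicClosure ℚ)

/-- the core theorem, for all data -/
def CoreAll : Prop := ∀ {N p : ℕ} [NeZero N] [NeZero (N * p)] [NeZero (N * 4 * p)] [Fact p.Prime]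
  (_ : ¬ p ∣ N) (_ : p ≠ 2) {A : ValuationSubring Qb} (_ : A.LiesOverPrime p)
  [IsAlgClosed (IsLocalRing.ResidueField A)]
  (δ : modularFunctionFieldBar (N * p) →ₐ[Qb] modularFunctionFieldFullC Qb (N * 4 * p))
  (_ : ∀ x, (δ x : LaurentSeries Qb) = x), CoreJ₂ (IsLocalRing.ResidueField A) A N p δ

/-- the degree of `X₀(N * 4 * p)` over `X₀(N * p)` -/
def DegAll : Prop := ∀ {N p : ℕ} [NeZero N] [NeZero (N * p)] [NeZero (N * 4 * p)] [Fact p.Prime]
  (_ : ¬ p ∣ N) (_ : p ≠ 2)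
  (δ : modularFunctionFieldBar (N * p) →ₐ[Qb] modularFunctionFieldFullC Qb (N * 4 * p))
  (_ : ∀ x, (δ x : LaurentSeries Qb) = x), finrankAlong Qb δ = 6 ∨ finrankAlong Qb δ = 4

theorem mainJ2_of (hcore : CoreAll) (hdeg : DegAll) : LF3.MainJ2 := by
  intro N p _ _ hp hpN hp2 E _ _ _ hdim hirr KE hKE hE S hpS hS a frE A hA ζ hζ e x he hx hIe hIx
    J₀ β hJx H c hc0 hpc hcT
  have i1 : NeZero p := ⟨hp.out.ne_zero⟩
  have i2 : NeZero (N * 4 * p) :=
    ⟨mul_ne_zero (mul_ne_zero (NeZero.ne N) (by norm_num)) hp.out.ne_zero⟩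
  have i3 : IsAlgClosed (IsLocalRing.ResidueField A) := isAlgClosed_residueField A
  obtain ⟨δ, hδ⟩ := exists_dlt N p
  exact mainJ_of_core hpN hp2 hdim hirr KE hKE hE S hpS hS a frE hA hζ he hx hIe hIx J₀ β hJx H hc0
    hpc hcT δ (hcore hpN hp2 hA δ hδ)
    (LJ3.inj_input hp2 hdim hirr rfl δ hδ (hdeg hpN hp2 δ hδ))

end Fermat.Agent.LD6
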