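import Fermat.Agent.LD6.Deg
import Fermat.Agent.LD6.MainAll

/-!
# The degree of `X₀(N * 4 * p)` over `X₀(N * p)`
-/

set_option autoImplicit false

noncomputable section

open AlgebraicCurve ModularCurve IntermediateField

attribute [-instance] Fermat.Agent.X0Places.ffField Fermat.Agent.X0Places.ffAlgebra

namespace Fermat.Agent.LD6

theorem degAll : DegAll := by
  intro N p _ _ _ hp hpN hp2 δ hδ
  exact (finrankAlong_four_or (K := AlgebraicClosure ℚ) (M := N * p) (M' := N * 4 * p) (by ring)
    (Nat.cast_ne_zero.mpr (mul_ne_zero (NeZero.ne _) (by norm_num)))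
    (Fermat.Agent.HeckeRed.laurentBaseChange_full _ (N * p)) rfl δ hδ).symm

end Fermat.Agent.LD6
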