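import Fermat.Agent.LLv.Main

/-!
# Level lowering at `p` for every odd `p`, from the core theorem at level `N * 4`
-/

set_option autoImplicit false
set_option linter.unusedSectionVars false
set_option maxHeartbeats 1000000

noncomputable section

open AlgebraicCurve Module IntermediateField ModularCurve HahnSeries CuspForm ModularFormClass
  CongruenceSubgroup

attribute [-instance] Fermat.Agent.X0Places.ffField Fermat.Agent.X0Places.ffAlgebra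

namespace Fermat.Agent.LD6

open Fermat.Agent.BadRed Fermat.Agent.LLp Fermat.Agent.LLu Fermat.Agent.LLc Fermat.Agent.Degen
open Fermat.Agent.FunField Fermat.Agent.FunField.PlaceLemmas Fermat.Agent.Deuring
open Fermat.Agent.Igusa Fermat.Agent.AtkinLehner Fermat.Agent.HeckeRed Fermat.Agent.TorsCmp
open Fermat.Agent.LLv

local notation "Qb" => AlgebraicClosure ℚ
local notation "GQ" => (AlgebraicClosure ℚ ≃ₐ[ℚ] AlgebraicClosure ℚ)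

/-- the core theorem for the data `(A, N, p)` and the pull-back `δ` -/
def CoreJ₂ (κ : Type*) [Field κ] [IsAlgClosed κ] (A : ValuationSubring Qb) (N p : ℕ)
    [Fact p.Prime] [NeZero N] [NeZero (N * p)]
    {E₄ : IntermediateField Qb (LaurentSeries Qb)} [IsFF Qb E₄]
    (δ : modularFunctionFieldBar (N * p) →ₐ[Qb] E₄) : Prop :=
  ∀ {ζ : Qb} (_ : IsPrimitiveRoot ζ p) {J₀ : Subgroup GQ} {β : Qb}
    (_ : LLc.KHyp A p J₀ (A.valuation (ζ - 1)) β) (hex : ZAL.ExDiv p (N * p))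
    {ce cx : JZero (N * p)} (_ : p • ce = 0) (_ : p • cx = 0) {ε : ℤ} (_ : ε = 1 ∨ ε = -1)
    (_ : ZAL.wS iotaQbar hex • ce = ε • ce)
    (_ : ZAL.wS iotaQbar hex • cx = ε • cx)
    (_ : pushPic (heckeAlphaBar Qb N p) (ZAL.wS iotaQbar hex • ce) = 0)
    (_ : pushPic (heckeAlphaBar Qb N p) (ZAL.wS iotaQbar hex • cx) = 0)
    (_ : ∀ s ∈ A.inertiaSubgroupIn ℚ, ∀ k : ℕ, s ζ = ζ ^ k → s • ce = k • ce)
    (_ : ∀ s ∈ A.inertiaSubgroupIn ℚ, ∃ b : ℕ, s • cx = cx + b • ce)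
    (_ : ∀ s ∈ J₀, s • cx = cx)
    (_ : ∀ a b : ℤ, a • pullPic δ cx = b • pullPic δ ce → (p : ℤ) ∣ a)
    (S : Set ℕ) (_ : p ∈ S) (_ : ∀ q : ℕ, q.Prime → q ∣ N → q ∈ S) (a : ℕ → ℤ)
    (_ : ∀ (ℓ : ℕ) (hℓ : ℓ.Prime), ℓ ∉ S → heckeOperatorBar (N * p) ⟨ℓ, hℓ⟩ cx = a ℓ • cx),
    (∀ ℓ : ℕ, ℓ.Prime → ℓ ∉ S → (p : ℤ) ∣ a ℓ - (ℓ + 1)) ∨
      ∃ c : Pic0 κ (modularFunctionFieldFullC κ N), c ≠ 0 ∧ p • c = 0 ∧
        ∀ (ℓ : ℕ) (_ : ℓ.Prime) [NeZero ℓ], ¬ ℓ ∣ N → ℓ ∉ S → PIC.heckeC κ N ℓ c = a ℓ • c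

set_option synthInstance.maxHeartbeats 400000 in
/-- **Level lowering at `p`**, from the core theorem. -/
theorem mainJ_of_core {N p : ℕ} [NeZero N] [NeZero (N * p)] [hp : Fact p.Prime] (hpN : ¬ p ∣ N)
    (hp2 : p ≠ 2) {E : Type} [AddCommGroup E] [Module (ZMod p) E] [DistribMulAction GQ E]
    (hdim : Module.finrank (ZMod p) E = 2)
    (hirr : ∀ W : Submodule (ZMod p) E, (∀ g : GQ, ∀ x ∈ W, g • x ∈ W) → W = ⊥ ∨ W = ⊤)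
    (KE : IntermediateField ℚ Qb) (hKE : FiniteDimensional ℚ KE)
    (hE : ∀ σ : GQ, (∀ x ∈ KE, σ x = x) → ∀ v : E, σ • v = v) (S : Finset ℕ) (hpS : p ∈ S)
    (hS : ∀ q : ℕ, q.Prime → q ∣ N * p → q ∈ S) (a : ℕ → ℤ)
    (frE : ∀ ℓ : ℕ, ℓ.Prime → ℓ ∉ S → ∀ A : ValuationSubring Qb, A.LiesOverPrime ℓ →
      ∀ τ : GQ, A.IsFrobeniusAt τ ℓ → ∀ v : E, τ • τ • v - a ℓ • (τ • v) + ℓ • v = 0)
    {A : ValuationSubring Qb} (hA : A.LiesOverPrime p) {ζ : Qb} (hζ : IsPrimitiveRoot ζ p)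
    {e x : E} (he : e ≠ 0) (hx : ∀ k : ℕ, x ≠ k • e)
    (hIe : ∀ s ∈ A.inertiaSubgroupIn ℚ, ∀ k : ℕ, s ζ = ζ ^ k → s • e = k • e)
    (hIx : ∀ s ∈ A.inertiaSubgroupIn ℚ, ∃ κ : ℕ, s • x = x + κ • e)
    (J₀ : Subgroup GQ) (β : Qb) (hJx : ∀ s ∈ J₀, s • x = x)
    (H : LLc.KHyp A p J₀ (A.valuation (ζ - 1)) β) {c : JZero (N * p)} (hc0 : c ≠ 0)
    (hpc : p • c = 0) (hcT : ∀ (ℓ : ℕ) (hℓ : ℓ.Prime), ¬ ℓ ∣ N * p → ℓ ∉ S →
      heckeOperatorBar (N * p) ⟨ℓ, hℓ⟩ c = a ℓ • c)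
    {E₄ : IntermediateField Qb (LaurentSeries Qb)} [IsFF Qb E₄]
    (δ : modularFunctionFieldBar (N * p) →ₐ[Qb] E₄)
    [IsAlgClosed (IsLocalRing.ResidueField A)] (hcore : CoreJ₂ (IsLocalRing.ResidueField A) A N p δ)
    (hinj : ∀ ι : E →+ JZero (N * p), Function.Injective ι →
      (∀ (g : GQ) (x : E), ι (g • x) = g • ι x) → (∀ x, p • ι x = 0) →
        ∀ x, pullPic δ (ι x) = 0 → x = 0) :
    ∃ (f : CuspForm (Gamma0 N) 2) (𝔪 : Ideal (integralClosure ℤ ℂ)), f.IsNormalizedEigenform ∧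
      𝔪.IsMaximal ∧ (p : integralClosure ℤ ℂ) ∈ 𝔪 ∧ ∀ ℓ : ℕ, ℓ.Prime → ¬ ℓ ∣ N → ℓ ∉ S →
        ∃ b : integralClosure ℤ ℂ, (b : ℂ) = qCoeff f ℓ ∧
          b - ((a ℓ : ℤ) : integralClosure ℤ ℂ) ∈ 𝔪 := by
  have i1 : NeZero p := ⟨hp.out.ne_zero⟩
  have hex : ZAL.ExDiv p (N * p) := exDiv hp.out hpN
  have hSN : ∀ q : ℕ, q.Prime → q ∣ N → q ∈ (S : Set ℕ) := fun q hq h => hS q hq (h.mul_right p)
  have hcV : c ∈ eigJ (N * p) p S a :=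
    ⟨hpc, fun ℓ hℓ hℓS => hcT ℓ hℓ (fun h => hℓS (hS ℓ hℓ h)) hℓS⟩
  by_cases hold : ∃ c ∈ eigJ (N * p) p S a, pushPic (heckeAlphaBar Qb N p) c ≠ 0
  · -- the old case
    obtain ⟨c, hc, hne⟩ := hold
    have h1 := push_mem_eigJ hS hc
    exact PIC.exists_eigenform_of_classJ (S := (S : Set ℕ)) hSN a hne h1.1
      (fun ℓ hℓ _ hℓS => h1.2 ℓ hℓ hℓS)
  push Not at hold
  -- the sign of the involution
  obtain ⟨ε, hε, c₁, hc₁, hc₁0⟩ := exists_sign (p := p) hex hS hcV hc0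
  -- the embedding
  obtain ⟨ι, hι, hιV, hιg⟩ := exists_embedding_J (M := N * p) hp2 hdim hirr KE hKE hE
    (eigW hex S a p ε) ⟨c₁, hc₁, hc₁0⟩ (fun c hc => hc.1.1) (fun σ c hc => gal_mem_eigW hc σ) S hpS
    hS a (fun c hc ℓ hℓ hℓS => hc.1.2 ℓ hℓ hℓS) frE
  have hww : ∀ c ∈ eigW hex S a p ε,
      pushPic (heckeAlphaBar Qb N p) (ZAL.wS iotaQbar hex • c) = 0 :=
    fun c hc => hold _ (w_mem_eigJ hex hS hc.1)
  have hind : ∀ z t : ℤ, z • pullPic δ (ι x) = t • pullPic δ (ι e) → (p : ℤ) ∣ z := by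
    intro z t h
    rw [← map_zsmul, ← map_zsmul, ← map_zsmul, ← map_zsmul, ← sub_eq_zero, ← map_sub,
      ← map_sub] at h
    have h5 : z • x = t • e := sub_eq_zero.mp (hinj ι hι hιg (fun x => (hιV x).1.1) _ h)
    by_contra hcon
    have h6 : ((z : ℤ) : ZMod p) ≠ 0 := by
      rwa [Ne, ZMod.intCast_zmod_eq_zero_iff_dvd]
    have h7 : ((z : ℤ) : ZMod p) • x = ((t : ℤ) : ZMod p) • e := by
      rw [Int.cast_smul_eq_zsmul, Int.cast_smul_eq_zsmul]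
      exact h5
    apply hx ((((z : ℤ) : ZMod p)⁻¹ * ((t : ℤ) : ZMod p)).val)
    rw [← Nat.cast_smul_eq_nsmul (ZMod p), ZMod.natCast_val, ZMod.cast_id', id, mul_smul, ← h7,
      smul_smul, inv_mul_cancel₀ h6, one_smul]
  have hse : ∀ s ∈ A.inertiaSubgroupIn ℚ, ∀ k : ℕ, s ζ = ζ ^ k → s • ι e = k • ι e := by
    intro s hs k hk
    rw [← hιg s e, hIe s hs k hk, map_nsmul]
  have hsx : ∀ s ∈ A.inertiaSubgroupIn ℚ, ∃ b : ℕ, s • ι x = ι x + b • ι e := by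
    intro s hs
    obtain ⟨b, hb⟩ := hIx s hs
    exact ⟨b, by rw [← hιg s x, hb, map_add, map_nsmul]⟩
  have hJι : ∀ s ∈ J₀, s • ι x = ι x := by
    intro s hs
    rw [← hιg s x, hJx s hs]
  have hkey := hcore hζ H hex (hιV e).1.1 (hιV x).1.1 hε (hιV e).2
    (hιV x).2 (hww _ (hιV e)) (hww _ (hιV x)) hse hsx hJι hind (S : Set ℕ) hpS hSN a
    (fun ℓ hℓ hℓS => (hιV x).1.2 ℓ hℓ hℓS)
  rcases hkey with h5 | ⟨c₂, hc₂0, hpc₂, hc₂T⟩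
  · exact (not_eisenstein hp2 hdim hirr KE hKE hE S hpS a frE h5).elim
  · exact PIC.exists_eigenform_of_classC (S := (S : Set ℕ)) hSN hpN hpS A hA a hc₂0 hpc₂ hc₂T

end Fermat.Agent.LD6
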