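import Fermat.Agent.LD6.MainJ

/-!
# The pull-back from level `N p` to level `N * 4 * p`
-/

set_option autoImplicit false

noncomputable section

open AlgebraicCurve IntermediateField ModularCurve

attribute [-instance] Fermat.Agent.X0Places.ffField Fermat.Agent.X0Places.ffAlgebra

namespace Fermat.Agent.LD6

local notation "Qb" => AlgebraicClosure ℚ

theorem bar_le_full (N p : ℕ) [NeZero (N * p)] :
    modularFunctionFieldBar (N * p) ≤ modularFunctionFieldFullC Qb (N * 4 * p) := by
  have h0 := NeZero.ne (N * p)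
  have h1 : N * 4 * p ≠ 0 := by
    rw [mul_ne_zero_iff] at h0
    exact mul_ne_zero (mul_ne_zero h0.1 (by norm_num)) h0.2
  have : NeZero (N * 4 * p) := ⟨h1⟩
  have h2 : modularFunctionFieldBar (N * p) = modularFunctionFieldFullC Qb (N * p) :=
    Fermat.Agent.HeckeRed.laurentBaseChange_full Qb (N * p)
  have h3 : N * p ∣ N * 4 * p := by
    rw [mul_assoc N 4 p, mul_comm 4 p, ← mul_assoc]
    exact dvd_mul_right _ _
  rw [h2]
  exact full_degeneracyC_le Qb h3

/-- the inclusion of function fields -/
theorem exists_dlt (N p : ℕ) [NeZero (N * p)] :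
    ∃ δ : modularFunctionFieldBar (N * p) →ₐ[Qb] modularFunctionFieldFullC Qb (N * 4 * p),
      ∀ x, (δ x : LaurentSeries Qb) = x :=
  ⟨IntermediateField.inclusion (bar_le_full N p), fun _ => rfl⟩

end Fermat.Agent.LD6
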